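/-
S17 / G-DIV / piece BC (helper197), part 1: the `π`-adic EXPANSION at a place of degree one.

For a place `v` of `F/K` with residue field `K` (`v.deg = 1`) and a uniformizer `π`
(`v.ord π = 1`) we construct the ring homomorphism
  `expand v hv π hπ : F →+* LaurentSeries K`
("Taylor–Laurent expansion at `v` in the parameter `π`") with
  `(expand f).order = v.ord f`,  `expand (algebraMap c) = C c`,  `expand π = single 1 1`.
-/
import Fermat.Agent.Lib.RR.Ord
import Fermat.Agent.S24.H117.EmbPlace

set_option autoImplicit false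

noncomputable section

namespace Fermat.Agent.S17.H197

open AlgebraicCurve Fermat.Agent.Lib.RR Polynomial

variable {K F : Type*} [Field K] [Field F] [Algebra K F]

section Res

variable (v : Place K F) (hv : v.deg = 1)

include hv in
theorem residue_algebraMap_bijective :
    Function.Bijective (algebraMap K v.ResidueField) := by
  refine ⟨(algebraMap K v.ResidueField).injective, ?_⟩
  intro x
  have h1 : (1 : v.ResidueField) ≠ 0 := one_ne_zero
  have hspan := (finrank_eq_one_iff_of_nonzero' (1 : v.ResidueField) h1).mp hv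
  obtain ⟨c, hc⟩ := hspan x
  exact ⟨c, by rw [← hc, Algebra.smul_def, mul_one]⟩

/-- The residue map `O_v → K` at a place of degree one. -/
def resHom : v.toValuationSubring →+* K :=
  ((RingEquiv.ofBijective (algebraMap K v.ResidueField)
    (residue_algebraMap_bijective v hv)).symm : v.ResidueField →+* K).comp
    (IsLocalRing.residue v.toValuationSubring)

theorem algebraMap_resHom (a : v.toValuationSubring) :
    algebraMap K v.ResidueField (resHom v hv a) = IsLocalRing.residue v.toValuationSubring a := by
  unfold resHom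
  simp only [RingHom.coe_comp, Function.comp_apply, RingHom.coe_coe]
  exact (RingEquiv.ofBijective (algebraMap K v.ResidueField)
    (residue_algebraMap_bijective v hv)).apply_symm_apply _

theorem resHom_algebraMap (c : K) :
    resHom v hv (algebraMap K v.toValuationSubring c) = c := by
  apply (algebraMap K v.ResidueField).injective
  rw [algebraMap_resHom]
  rfl

theorem sub_resHom_mem (a : v.toValuationSubring) :
    a - algebraMap K v.toValuationSubring (resHom v hv a)
      ∈ IsLocalRing.maximalIdeal v.toValuationSubring := by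
  rw [← IsLocalRing.residue_eq_zero_iff, map_sub, sub_eq_zero, ← algebraMap_resHom v hv a]
  rfl

theorem resHom_eq_zero_iff (a : v.toValuationSubring) :
    resHom v hv a = 0 ↔ a ∈ IsLocalRing.maximalIdeal v.toValuationSubring := by
  rw [← IsLocalRing.residue_eq_zero_iff, ← algebraMap_resHom v hv a]
  exact ((algebraMap K v.ResidueField).injective.eq_iff' (map_zero _)).symm

end Res

section IsExp

variable (v : Place K F) (π : F)

/-- `s` is a `π`-adic expansion of `f` at `v`: all truncations approximate `f`. -/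
def IsExp (f : F) (s : PowerSeries K) : Prop :=
  ∀ N : ℕ, ∃ g ∈ v.toValuationSubring, f - aeval π (PowerSeries.trunc N s) = π ^ N * g

variable {v π}

theorem aeval_mem_of_mem (hπ : π ∈ v.toValuationSubring) (p : K[X]) :
    aeval π p ∈ v.toValuationSubring := by
  rw [aeval_eq_sum_range]
  refine Subring.sum_mem _ fun i _ => ?_
  rw [Algebra.smul_def]
  exact mul_mem (v.algebraMap_mem' _) (pow_mem hπ i)

theorem exists_X_pow_mul_of_trunc (p : K[X]) (N : ℕ) :
    ∃ q : K[X], p = PowerSeries.trunc N (p : PowerSeries K) + X ^ N * q := by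
  have h : X ^ N ∣ p - PowerSeries.trunc N (p : PowerSeries K) := by
    rw [X_pow_dvd_iff]
    intro d hd
    rw [coeff_sub, PowerSeries.coeff_trunc, if_pos hd, Polynomial.coeff_coe, sub_self]
  obtain ⟨q, hq⟩ := h
  exact ⟨q, by rw [← hq]; ring⟩

theorem IsExp.add {f f' : F} {s s' : PowerSeries K} (h : IsExp v π f s) (h' : IsExp v π f' s') :
    IsExp v π (f + f') (s + s') := by
  intro N
  obtain ⟨g, hg, e⟩ := h N
  obtain ⟨g', hg', e'⟩ := h' N
  refine ⟨g + g', add_mem hg hg', ?_⟩
  rw [map_add, map_add, mul_add, ← e, ← e']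
  ring

theorem IsExp.neg {f : F} {s : PowerSeries K} (h : IsExp v π f s) : IsExp v π (-f) (-s) := by
  intro N
  obtain ⟨g, hg, e⟩ := h N
  refine ⟨-g, neg_mem hg, ?_⟩
  rw [map_neg, map_neg, mul_neg, ← e]
  ring

theorem IsExp.mul (hπ : π ∈ v.toValuationSubring) {f f' : F} {s s' : PowerSeries K}
    (h : IsExp v π f s) (h' : IsExp v π f' s') : IsExp v π (f * f') (s * s') := by
  intro N
  obtain ⟨g, hg, e⟩ := h N
  obtain ⟨g', hg', e'⟩ := h' N
  obtain ⟨q, hq⟩ := exists_X_pow_mul_of_trunc
    (PowerSeries.trunc N s * PowerSeries.trunc N s') N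
  rw [Polynomial.coe_mul, PowerSeries.trunc_trunc_mul_trunc] at hq
  have hP := aeval_mem_of_mem hπ (PowerSeries.trunc N s)
  have hP' := aeval_mem_of_mem hπ (PowerSeries.trunc N s')
  have hq' := aeval_mem_of_mem hπ q
  have hmul : aeval π (PowerSeries.trunc N s) * aeval π (PowerSeries.trunc N s')
      = aeval π (PowerSeries.trunc N (s * s')) + π ^ N * aeval π q := by
    calc aeval π (PowerSeries.trunc N s) * aeval π (PowerSeries.trunc N s')
        = aeval π (PowerSeries.trunc N s * PowerSeries.trunc N s') :=
          (map_mul (aeval π) _ _).symm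
      _ = aeval π (PowerSeries.trunc N (s * s') + X ^ N * q) := by rw [hq]
      _ = _ := by
          rw [map_add (aeval π), map_mul (aeval π), map_pow (aeval π), aeval_X]
  refine ⟨g * aeval π (PowerSeries.trunc N s') + aeval π (PowerSeries.trunc N s) * g'
      + π ^ N * g * g' + aeval π q, ?_, ?_⟩
  · exact add_mem (add_mem (add_mem (mul_mem hg hP') (mul_mem hP hg'))
      (mul_mem (mul_mem (pow_mem hπ N) hg) hg')) hq'
  · have e1 : f = aeval π (PowerSeries.trunc N s) + π ^ N * g := by rw [← e]; ring
    have e2 : f' = aeval π (PowerSeries.trunc N s') + π ^ N * g' := by rw [← e']; ring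
    have hmul' : aeval π (PowerSeries.trunc N (s * s'))
        = aeval π (PowerSeries.trunc N s) * aeval π (PowerSeries.trunc N s')
          - π ^ N * aeval π q := by rw [hmul]; ring
    rw [hmul']
    conv_lhs => rw [e1, e2]
    ring

theorem isExp_algebraMap (c : K) : IsExp v π (algebraMap K F c) (PowerSeries.C c) := by
  intro N
  rcases N with _ | N
  · exact ⟨algebraMap K F c, v.algebraMap_mem' c, by simp⟩
  · refine ⟨0, zero_mem _, ?_⟩
    rw [PowerSeries.trunc_C, aeval_C]
    simp

theorem isExp_one : IsExp v π (1 : F) (1 : PowerSeries K) := by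
  have := isExp_algebraMap (v := v) (π := π) (1 : K)
  simpa using this

theorem isExp_zero : IsExp v π (0 : F) (0 : PowerSeries K) := by
  have := isExp_algebraMap (v := v) (π := π) (0 : K)
  simpa using this

theorem isExp_self (hπ : π ∈ v.toValuationSubring) : IsExp v π π (PowerSeries.X : PowerSeries K) := by
  intro N
  rcases N with _ | _ | N
  · exact ⟨π, hπ, by simp⟩
  · refine ⟨1, one_mem _, ?_⟩
    have : PowerSeries.trunc 1 (PowerSeries.X : PowerSeries K) = 0 := by
      ext d
      rw [PowerSeries.coeff_trunc, PowerSeries.coeff_X]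
      split_ifs with h1 h2
      · omega
      · rfl
      · rfl
    rw [this]
    simp
  · refine ⟨0, zero_mem _, ?_⟩
    rw [PowerSeries.trunc_X, aeval_X]
    simp

theorem IsExp.eq_zero (hπ1 : v.ord π = 1) {s : PowerSeries K} (h : IsExp v π 0 s) : s = 0 := by
  classical
  by_contra hs
  have hex : ∃ n, PowerSeries.coeff n s ≠ 0 := by
    by_contra hno
    push Not at hno
    exact hs (PowerSeries.ext fun n => by simpa using hno n)
  set n := Nat.find hex with hn
  have hc : PowerSeries.coeff n s ≠ 0 := Nat.find_spec hex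
  have hlt : ∀ m < n, PowerSeries.coeff m s = 0 := fun m hm => by
    have := Nat.find_min hex hm
    simpa using this
  have hπ0 : π ≠ 0 := by rintro rfl; simp at hπ1
  obtain ⟨g, hg, e⟩ := h (n + 1)
  have htr : PowerSeries.trunc (n + 1) s = monomial n (PowerSeries.coeff n s) := by
    ext d
    rw [PowerSeries.coeff_trunc, coeff_monomial]
    by_cases hd : d < n + 1
    · rw [if_pos hd]
      rcases Nat.lt_succ_iff_lt_or_eq.mp hd with h1 | h1
      · rw [hlt d h1, if_neg (by omega)]
      · rw [h1, if_pos rfl]
    · rw [if_neg hd, if_neg (by omega)]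
  rw [htr, aeval_monomial, zero_sub, pow_succ] at e
  have e' : -(algebraMap K F (PowerSeries.coeff n s)) = π * g := by
    have h2 : π ^ n * (-(algebraMap K F (PowerSeries.coeff n s))) = π ^ n * (π * g) := by
      rw [mul_neg, mul_comm (π ^ n), e]; ring
    exact mul_left_cancel₀ (pow_ne_zero n hπ0) h2
  have hc' : algebraMap K F (PowerSeries.coeff n s) ≠ 0 := by
    rwa [Ne, map_eq_zero_iff _ (algebraMap K F).injective]
  have hg0 : g ≠ 0 := by
    rintro rfl
    rw [mul_zero, neg_eq_zero] at e'
    exact hc' e'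
  have h3 : v.ord (π * g) = 1 + v.ord g := by rw [v.ord_mul hπ0 hg0, hπ1]
  have h4 : v.ord (-(algebraMap K F (PowerSeries.coeff n s))) = 0 := by
    rw [ord_neg, ord_algebraMap]
  have h5 : 0 ≤ v.ord g := ord_nonneg_of_mem v hg
  rw [e', h3] at h4
  omega

theorem IsExp.unique (hπ1 : v.ord π = 1) {f : F} {s s' : PowerSeries K}
    (h : IsExp v π f s) (h' : IsExp v π f s') : s = s' := by
  have h0 : IsExp v π 0 (s + -s') := by
    have := h.add h'.neg
    rwa [add_neg_cancel] at this
  have := h0.eq_zero hπ1
  exact eq_neg_of_add_eq_zero_left this |>.trans (neg_neg s')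

end IsExp

section Exists

variable (v : Place K F) (hv : v.deg = 1) (π : F) (hπ1 : v.ord π = 1)

include hπ1 in
theorem pi_ne_zero : π ≠ 0 := by rintro rfl; simp at hπ1

include hπ1 in
theorem pi_mem : π ∈ v.toValuationSubring := mem_of_ord_nonneg v (by rw [hπ1]; norm_num)

include hπ1 in
theorem step_mem (a : v.toValuationSubring) :
    ((a : F) - algebraMap K F (resHom v hv a)) * π⁻¹ ∈ v.toValuationSubring := by
  have h := sub_resHom_mem v hv a
  rw [mem_maximalIdeal_iff] at h
  rcases h with h | h
  · have h' : (a : F) - algebraMap K F (resHom v hv a) = 0 := by simpa using h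
    rw [h', zero_mul]
    exact zero_mem _
  · have h' : 0 < v.ord ((a : F) - algebraMap K F (resHom v hv a)) := by simpa using h
    have hne : (a : F) - algebraMap K F (resHom v hv a) ≠ 0 := by
      intro h0; rw [h0, v.ord_zero] at h'; exact lt_irrefl _ h'
    apply mem_of_ord_nonneg
    rw [v.ord_mul hne (inv_ne_zero (pi_ne_zero v π hπ1)), v.ord_inv, hπ1]
    omega

/-- One step of the expansion: `a ↦ (a - a(v)) / π`. -/
def step (a : v.toValuationSubring) : v.toValuationSubring :=
  ⟨((a : F) - algebraMap K F (resHom v hv a)) * π⁻¹, step_mem v hv π hπ1 a⟩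

theorem coe_eq_add_step (a : v.toValuationSubring) :
    (a : F) = algebraMap K F (resHom v hv a) + π * (step v hv π hπ1 a : F) := by
  have hπ0 := pi_ne_zero v π hπ1
  show (a : F) = _ + π * (((a : F) - algebraMap K F (resHom v hv a)) * π⁻¹)
  field_simp
  ring

/-- The coefficients of the expansion of `a ∈ O_v`. -/
def expSeries (a : v.toValuationSubring) : PowerSeries K :=
  PowerSeries.mk fun n => resHom v hv ((step v hv π hπ1)^[n] a)

theorem sub_trunc_expSeries (a : v.toValuationSubring) (N : ℕ) :
    (a : F) - aeval π (PowerSeries.trunc N (expSeries v hv π hπ1 a))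
      = π ^ N * (((step v hv π hπ1)^[N] a : v.toValuationSubring) : F) := by
  induction N with
  | zero => simp
  | succ N ih =>
    rw [PowerSeries.trunc_succ, map_add, aeval_monomial, ← sub_sub, ih, expSeries,
      PowerSeries.coeff_mk, Function.iterate_succ_apply']
    conv_lhs => rw [coe_eq_add_step v hv π hπ1 ((step v hv π hπ1)^[N] a)]
    ring

theorem isExp_expSeries (a : v.toValuationSubring) :
    IsExp v π (a : F) (expSeries v hv π hπ1 a) := fun N =>
  ⟨_, ((step v hv π hπ1)^[N] a).2, sub_trunc_expSeries v hv π hπ1 a N⟩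

theorem expSeries_eq_of_isExp {a : v.toValuationSubring} {s : PowerSeries K}
    (h : IsExp v π (a : F) s) : expSeries v hv π hπ1 a = s :=
  (isExp_expSeries v hv π hπ1 a).unique hπ1 h

/-- The expansion as a ring homomorphism `O_v →+* K⟦X⟧`. -/
def expandInt : v.toValuationSubring →+* PowerSeries K where
  toFun := expSeries v hv π hπ1
  map_one' := expSeries_eq_of_isExp v hv π hπ1 (by simpa using isExp_one)
  map_mul' a b := expSeries_eq_of_isExp v hv π hπ1 (by
    simpa using (isExp_expSeries v hv π hπ1 a).mul (pi_mem v π hπ1) (isExp_expSeries v hv π hπ1 b))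
  map_zero' := expSeries_eq_of_isExp v hv π hπ1 (by simpa using isExp_zero)
  map_add' a b := expSeries_eq_of_isExp v hv π hπ1 (by
    simpa using (isExp_expSeries v hv π hπ1 a).add (isExp_expSeries v hv π hπ1 b))

theorem expandInt_apply (a : v.toValuationSubring) :
    expandInt v hv π hπ1 a = expSeries v hv π hπ1 a := rfl

theorem constantCoeff_expandInt (a : v.toValuationSubring) :
    PowerSeries.constantCoeff (expandInt v hv π hπ1 a) = resHom v hv a := by
  rw [expandInt_apply, expSeries, ← PowerSeries.coeff_zero_eq_constantCoeff_apply,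
    PowerSeries.coeff_mk]
  rfl

theorem expandInt_algebraMap (c : K) :
    expandInt v hv π hπ1 (algebraMap K v.toValuationSubring c) = PowerSeries.C c :=
  expSeries_eq_of_isExp v hv π hπ1 (isExp_algebraMap c)

theorem expandInt_pi :
    expandInt v hv π hπ1 ⟨π, pi_mem v π hπ1⟩ = PowerSeries.X :=
  expSeries_eq_of_isExp v hv π hπ1 (isExp_self (pi_mem v π hπ1))

theorem expandInt_injective : Function.Injective (expandInt v hv π hπ1) := by
  rw [injective_iff_map_eq_zero]
  intro a ha
  by_contra ha0
  have ha0' : (a : F) ≠ 0 := fun h => ha0 (Subtype.ext h)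
  have hπ0 := pi_ne_zero v π hπ1
  have hexp := isExp_expSeries v hv π hπ1 a
  rw [← expandInt_apply, ha] at hexp
  obtain ⟨g, hg, e⟩ := hexp ((v.ord (a : F)).toNat + 1)
  rw [map_zero (PowerSeries.trunc _), map_zero, sub_zero] at e
  have hg0 : g ≠ 0 := by rintro rfl; rw [mul_zero] at e; exact ha0' e
  have h1 := congrArg v.ord e
  rw [v.ord_mul (pow_ne_zero _ hπ0) hg0, ord_pow, hπ1] at h1
  have h2 : 0 ≤ v.ord g := ord_nonneg_of_mem v hg
  have h3 : 0 ≤ v.ord (a : F) := ord_nonneg_of_mem v a.2
  push_cast at h1
  rw [Int.toNat_of_nonneg h3] at h1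
  omega

/-- **The expansion at `v` in the uniformizer `π`.** -/
def expand : F →+* LaurentSeries K :=
  IsFractionRing.lift (A := v.toValuationSubring) (K := F)
    (g := (HahnSeries.ofPowerSeries ℤ K).comp (expandInt v hv π hπ1))
    ((HahnSeries.ofPowerSeries_injective).comp (expandInt_injective v hv π hπ1))

theorem expand_coe (a : v.toValuationSubring) :
    expand v hv π hπ1 (a : F) = HahnSeries.ofPowerSeries ℤ K (expandInt v hv π hπ1 a) :=
  IsFractionRing.lift_algebraMap _ a

theorem expand_of_mem {f : F} (hf : f ∈ v.toValuationSubring) :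
    expand v hv π hπ1 f = HahnSeries.ofPowerSeries ℤ K (expandInt v hv π hπ1 ⟨f, hf⟩) :=
  expand_coe v hv π hπ1 ⟨f, hf⟩

theorem expand_algebraMap (c : K) :
    expand v hv π hπ1 (algebraMap K F c) = HahnSeries.C c := by
  have := expand_coe v hv π hπ1 (algebraMap K v.toValuationSubring c)
  rw [expandInt_algebraMap, HahnSeries.ofPowerSeries_C] at this
  exact this

theorem expand_pi : expand v hv π hπ1 π = HahnSeries.single 1 1 := by
  have := expand_coe v hv π hπ1 ⟨π, pi_mem v π hπ1⟩
  rw [expandInt_pi, HahnSeries.ofPowerSeries_X] at this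
  exact this

open Fermat.Agent.S24.H117 in
theorem order_expand_of_ord_eq_zero {u : F} (hu0 : u ≠ 0) (hu : v.ord u = 0) :
    (expand v hv π hπ1 u).order = 0 := by
  have hmem : u ∈ v.toValuationSubring := Lib.RR.mem_of_ord_nonneg v (by rw [hu])
  rw [expand_of_mem v hv π hπ1 hmem]
  have hres : resHom v hv ⟨u, hmem⟩ ≠ 0 := by
    rw [Ne, resHom_eq_zero_iff, mem_maximalIdeal_iff]
    push Not
    exact ⟨hu0, by simp [hu]⟩
  have hcc : PowerSeries.constantCoeff (expandInt v hv π hπ1 ⟨u, hmem⟩) ≠ 0 := by
    rwa [constantCoeff_expandInt]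
  set s := expandInt v hv π hπ1 ⟨u, hmem⟩ with hs
  have hcoeff : (HahnSeries.ofPowerSeries ℤ K s).coeff 0 ≠ 0 := by
    have h1 : (HahnSeries.ofPowerSeries ℤ K s).coeff ((0 : ℕ) : ℤ) = PowerSeries.coeff 0 s :=
      HahnSeries.ofPowerSeries_apply_coeff s 0
    rw [Nat.cast_zero] at h1
    rw [h1, PowerSeries.coeff_zero_eq_constantCoeff_apply]
    exact hcc
  have hne : HahnSeries.ofPowerSeries ℤ K s ≠ 0 := fun h => hcoeff (by rw [h]; rfl)
  apply le_antisymm
  · exact HahnSeries.order_le_of_coeff_ne_zero hcoeff
  · rw [HahnSeries.le_order_iff_forall hne]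
    intro j hj
    have := PowerSeries.coeff_coe (R := K) (f := s) j
    rw [if_pos hj] at this
    exact this

open Fermat.Agent.S24.H117 in
/-- **The expansion computes the order.** -/
theorem order_expand (f : F) : (expand v hv π hπ1 f).order = v.ord f := by
  rcases eq_or_ne f 0 with rfl | hf
  · simp
  have hπ0 := pi_ne_zero v π hπ1
  set n := v.ord f with hn
  set u := f * π ^ (-n) with hu
  have hu0 : u ≠ 0 := mul_ne_zero hf (zpow_ne_zero _ hπ0)
  have huord : v.ord u = 0 := by
    rw [hu, v.ord_mul hf (zpow_ne_zero _ hπ0), v.ord_zpow, hπ1]; ring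
  have hf' : f = u * π ^ n := by
    rw [hu, mul_assoc, ← zpow_add₀ hπ0]; simp
  have h1 : eord (expand v hv π hπ1) f = eord (expand v hv π hπ1) u
      + n * eord (expand v hv π hπ1) π := by
    conv_lhs => rw [hf']
    rw [eord_mul _ hu0 (zpow_ne_zero _ hπ0), eord_zpow]
  have h2 : eord (expand v hv π hπ1) u = 0 := order_expand_of_ord_eq_zero v hv π hπ1 hu0 huord
  have h3 : eord (expand v hv π hπ1) π = 1 := by
    show (expand v hv π hπ1 π).order = 1
    rw [expand_pi]
    exact HahnSeries.order_single one_ne_zero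
  show eord (expand v hv π hπ1) f = n
  rw [h1, h2, h3]; ring

end Exists

end Fermat.Agent.S17.H197
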