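/-
S17 / piece G-TORS (helper197): the `n`-torsion of `J₀(N)(ℚ̄)` is finite, in the EXACT shape of
`Fermat.Agent.S17.Skel.torsion_finite` (row-lead helper17's skeleton), for every `N ≠ 0`, `n ≠ 0`.

Proof: adapter on top of the landed S30 piece FIN (helper810, `S30/H810/Fin.lean`):
`{x : JZero N | n • x = 0}.Finite` (analytic route: Kummer character of `Γ₀(N)`, reverse
dictionary places ↔ points of `ℍ`, `n`-th roots on `ℍ`, completeness of the modular function
field).
-/
import Fermat.Agent.S30.H810.Fin

set_option autoImplicit false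

namespace Fermat.Agent.S17.H197

open ModularCurve AlgebraicCurve

/-- **G-TORS.** The `n`-torsion of `J₀(N)(ℚ̄) = Pic⁰(ℚ̄(X₀(N)))` is finite. -/
theorem torsion_finite (N : ℕ) [NeZero N] (n : ℕ) (hn : n ≠ 0) :
    Finite (Pic0.torsion (AlgebraicClosure ℚ) (modularFunctionFieldBar N) n) := by
  have : NeZero n := ⟨hn⟩
  have h : {x : JZero N | n • x = 0}.Finite := Fermat.Agent.S30.H810.torsion_finite N n
  have hset : ((Pic0.torsion (AlgebraicClosure ℚ) (modularFunctionFieldBar N) n :
      AddSubgroup (Pic0 (AlgebraicClosure ℚ) (modularFunctionFieldBar N))) :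
        Set (Pic0 (AlgebraicClosure ℚ) (modularFunctionFieldBar N)))
      ⊆ {x : JZero N | n • x = 0} := by
    intro x hx
    have hx' : ((n : ℤ)) • x = 0 := Pic0.mem_torsion.mp hx
    show n • x = 0
    rw [← natCast_zsmul]
    exact hx'
  exact (h.subset hset).to_subtype

/-- The same for the torsion subgroup written with `ℕ`-multiples. -/
theorem torsion_finite' (N : ℕ) [NeZero N] (n : ℕ) (hn : n ≠ 0) :
    {x : JZero N | n • x = 0}.Finite := by
  have : NeZero n := ⟨hn⟩
  exact Fermat.Agent.S30.H810.torsion_finite N n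

end Fermat.Agent.S17.H197
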